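import Mathlib
import Fermat.Prelude.Def_GaloisRep_Flat

/-!
# The coefficient ring `ℤ[ζ_N, 1/N] ⊂ ℂ` and descent to `ℤ_(ℓ)`

Route-independent commutative algebra for S28:

* `ratLocalizedAt ℓ` (the Prelude's `ℤ_(ℓ) ⊂ ℚ`) is a valuation subring of `ℚ`, hence integrally
  closed with fraction field `ℚ`;
* a rational number which is integral over `ℤ_(ℓ)` (inside `ℚ` or inside `ℂ`) lies in `ℤ_(ℓ)`;
* for `ℓ ∤ N` every element of `coeffRing N = ℤ[ζ_N, 1/N] ⊂ ℂ` is integral over `ℤ_(ℓ)`;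
  hence `coeffRing N ∩ ℚ ⊆ ℤ_(ℓ)`, and a rational unit of `coeffRing N` is a unit of `ℤ_(ℓ)`.
-/

set_option autoImplicit false

namespace Fermat.Agent.S28.H207

open GaloisRep

/-- `ℤ_(ℓ)` as a valuation subring of `ℚ`. -/
def zlValuationSubring (ℓ : ℕ) (hℓ : ℓ.Prime) : ValuationSubring ℚ :=
  { ratLocalizedAt ℓ with
    mem_or_inv_mem' := by
      intro x
      by_cases hx : x.den.Coprime ℓ
      · exact Or.inl hx
      · right
        have hx0 : x ≠ 0 := by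
          rintro rfl
          exact hx (by simp)
        have hdvd : ℓ ∣ x.den := by
          by_contra h
          exact hx ((Nat.Prime.coprime_iff_not_dvd hℓ).mpr h).symm
        show (x⁻¹).den.Coprime ℓ
        rw [Rat.den_inv_of_ne_zero hx0]
        have hred : x.num.natAbs.Coprime x.den := x.reduced
        exact Nat.Coprime.coprime_dvd_right hdvd hred }

theorem zlValuationSubring_toSubring (ℓ : ℕ) (hℓ : ℓ.Prime) :
    (zlValuationSubring ℓ hℓ).toSubring = ratLocalizedAt ℓ := rfl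

theorem isIntegrallyClosed_ratLocalizedAt (ℓ : ℕ) (hℓ : ℓ.Prime) :
    IsIntegrallyClosed ↥(ratLocalizedAt ℓ) :=
  inferInstanceAs (IsIntegrallyClosed (zlValuationSubring ℓ hℓ).toSubring)

theorem isFractionRing_ratLocalizedAt (ℓ : ℕ) (hℓ : ℓ.Prime) :
    IsFractionRing ↥(ratLocalizedAt ℓ) ℚ :=
  inferInstanceAs (IsFractionRing (zlValuationSubring ℓ hℓ) ℚ)

/-- A rational number integral over `ℤ_(ℓ)` lies in `ℤ_(ℓ)`. -/
theorem mem_ratLocalizedAt_of_isIntegral (ℓ : ℕ) (hℓ : ℓ.Prime) (r : ℚ)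
    (hr : IsIntegral ↥(ratLocalizedAt ℓ) r) : r ∈ ratLocalizedAt ℓ := by
  have := isIntegrallyClosed_ratLocalizedAt ℓ hℓ
  have := isFractionRing_ratLocalizedAt ℓ hℓ
  obtain ⟨y, hy⟩ := (IsIntegrallyClosed.isIntegral_iff (R := ↥(ratLocalizedAt ℓ)) (K := ℚ)).mp hr
  rw [← hy]
  exact y.2

/-- The structure map `ℤ_(ℓ) → ℂ`. -/
noncomputable def zlToComplex (ℓ : ℕ) : ↥(ratLocalizedAt ℓ) →+* ℂ :=
  (algebraMap ℚ ℂ).comp (ratLocalizedAt ℓ).subtype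

@[simp] theorem zlToComplex_apply (ℓ : ℕ) (x : ↥(ratLocalizedAt ℓ)) :
    zlToComplex ℓ x = ((x : ℚ) : ℂ) := rfl

/-- A rational number whose image in `ℂ` is integral over `ℤ_(ℓ)` lies in `ℤ_(ℓ)`. -/
theorem mem_ratLocalizedAt_of_isIntegralElem (ℓ : ℕ) (hℓ : ℓ.Prime) (r : ℚ)
    (hr : (zlToComplex ℓ).IsIntegralElem (r : ℂ)) : r ∈ ratLocalizedAt ℓ := by
  apply mem_ratLocalizedAt_of_isIntegral ℓ hℓ
  obtain ⟨p, hp, hpr⟩ := hr
  refine ⟨p, hp, ?_⟩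
  have h1 : Polynomial.eval₂ (zlToComplex ℓ) (r : ℂ) p
      = algebraMap ℚ ℂ (Polynomial.eval₂ (ratLocalizedAt ℓ).subtype r p) := by
    rw [Polynomial.hom_eval₂]
    rfl
  rw [h1] at hpr
  have := (algebraMap ℚ ℂ).injective (hpr.trans (map_zero _).symm)
  exact this

/-- The coefficient ring `ℤ[ζ_N, 1/N] ⊂ ℂ`, `ζ_N = exp(2πi/N)`. -/
def coeffRing (N : ℕ) : Subring ℂ :=
  Subring.closure ({Complex.exp (2 * Real.pi * Complex.I / N), (N : ℂ)⁻¹} : Set ℂ)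

theorem zeta_mem_coeffRing (N : ℕ) : Complex.exp (2 * Real.pi * Complex.I / N) ∈ coeffRing N :=
  Subring.subset_closure (by simp)

theorem inv_mem_coeffRing (N : ℕ) : (N : ℂ)⁻¹ ∈ coeffRing N :=
  Subring.subset_closure (by simp)

/-- For `ℓ ∤ N`, every element of `ℤ[ζ_N, 1/N]` is integral over `ℤ_(ℓ)`. -/
theorem isIntegralElem_of_mem_coeffRing (N ℓ : ℕ) (hN : N ≠ 0) (hℓ : ℓ.Prime) (hℓN : ¬ ℓ ∣ N)
    {x : ℂ} (hx : x ∈ coeffRing N) : (zlToComplex ℓ).IsIntegralElem x := by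
  induction hx using Subring.closure_induction with
  | mem x hx =>
    rcases hx with rfl | hx
    · -- ζ_N is integral over ℤ, hence over ℤ_(ℓ)
      have hint : IsIntegral ℤ (Complex.exp (2 * Real.pi * Complex.I / N)) :=
        (Complex.isPrimitiveRoot_exp N hN).isIntegral (Nat.pos_of_ne_zero hN)
      obtain ⟨p, hp, hpx⟩ := hint
      refine ⟨p.map (Int.castRingHom ↥(ratLocalizedAt ℓ)), hp.map _, ?_⟩
      rw [Polynomial.eval₂_map]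
      have : (zlToComplex ℓ).comp (Int.castRingHom ↥(ratLocalizedAt ℓ)) = algebraMap ℤ ℂ :=
        RingHom.ext_int _ _
      rw [this]
      exact hpx
    · -- 1/N is in the image of ℤ_(ℓ)
      rw [Set.mem_singleton_iff] at hx
      subst hx
      have hmem : ((N : ℚ)⁻¹) ∈ ratLocalizedAt ℓ := by
        show ((N : ℚ)⁻¹).den.Coprime ℓ
        rw [Rat.inv_natCast_den_of_pos (Nat.pos_of_ne_zero hN)]
        exact ((Nat.Prime.coprime_iff_not_dvd hℓ).mpr hℓN).symm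
      have : ((N : ℂ)⁻¹) = zlToComplex ℓ ⟨(N : ℚ)⁻¹, hmem⟩ := by
        simp [zlToComplex_apply]
      rw [this]
      exact (zlToComplex ℓ).isIntegralElem_map
  | zero => exact (zlToComplex ℓ).isIntegralElem_zero
  | one => exact (zlToComplex ℓ).isIntegralElem_one
  | add x y _ _ hx hy => exact RingHom.IsIntegralElem.add _ hx hy
  | neg x _ hx => exact RingHom.IsIntegralElem.neg _ hx
  | mul x y _ _ hx hy => exact RingHom.IsIntegralElem.mul _ hx hy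

/-- **`ℤ[ζ_N, 1/N] ∩ ℚ ⊆ ℤ_(ℓ)`** for `ℓ ∤ N`. -/
theorem mem_ratLocalizedAt_of_mem_coeffRing (N ℓ : ℕ) (hN : N ≠ 0) (hℓ : ℓ.Prime) (hℓN : ¬ ℓ ∣ N)
    (r : ℚ) (hr : (r : ℂ) ∈ coeffRing N) : r ∈ ratLocalizedAt ℓ :=
  mem_ratLocalizedAt_of_isIntegralElem ℓ hℓ r (isIntegralElem_of_mem_coeffRing N ℓ hN hℓ hℓN hr)

/-- A rational number which is a unit of `ℤ[ζ_N, 1/N]` is a unit of `ℤ_(ℓ)` (for `ℓ ∤ N`). -/
theorem isUnit_ratLocalizedAt_of_mem_coeffRing (N ℓ : ℕ) (hN : N ≠ 0) (hℓ : ℓ.Prime)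
    (hℓN : ¬ ℓ ∣ N) (r : ℚ) (hr : (r : ℂ) ∈ coeffRing N) (hr' : ((r : ℂ))⁻¹ ∈ coeffRing N)
    (hr0 : r ≠ 0) :
    ∃ u : (↥(ratLocalizedAt ℓ))ˣ, ((u : ↥(ratLocalizedAt ℓ)) : ℚ) = r := by
  have h1 := mem_ratLocalizedAt_of_mem_coeffRing N ℓ hN hℓ hℓN r hr
  have h2 : r⁻¹ ∈ ratLocalizedAt ℓ :=
    mem_ratLocalizedAt_of_mem_coeffRing N ℓ hN hℓ hℓN r⁻¹ (by push_cast; exact hr')
  refine ⟨⟨⟨r, h1⟩, ⟨r⁻¹, h2⟩, ?_, ?_⟩, rfl⟩
  · ext; simp [hr0]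
  · ext; simp [hr0]

/-- An element of `ℤ_(ℓ)` is a unit iff it is not divisible by `ℓ`, in the form:
`r, r⁻¹ ∈ ℤ_(ℓ)` implies `ℓ ∤ r.num`. -/
theorem not_dvd_num_of_inv_mem (ℓ : ℕ) (hℓ : ℓ.Prime) (r : ℚ) (hr0 : r ≠ 0)
    (h2 : r⁻¹ ∈ ratLocalizedAt ℓ) : ¬ (ℓ : ℤ) ∣ r.num := by
  intro h
  have h3 : (r⁻¹).den.Coprime ℓ := h2
  rw [Rat.den_inv_of_ne_zero hr0] at h3
  have h4 : ℓ ∣ r.num.natAbs := Int.natCast_dvd.mp h
  have h5 : ℓ ∣ Nat.gcd r.num.natAbs ℓ := Nat.dvd_gcd h4 dvd_rfl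
  rw [Nat.Coprime] at h3
  rw [h3] at h5
  exact hℓ.one_lt.ne' (Nat.dvd_one.mp h5)

end Fermat.Agent.S28.H207
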