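import Mathlib
import Fermat.Prelude.Def_ModularCurve_LaurentCoeff

/-!
# Descent of polynomial relations between Laurent series (the "ρ-trick")

Let `L / k` be a field extension, `x y ∈ k((q))`, and `P ∈ L[Y][X]` monic in `X` with
`P(y, x) = 0` in `L((q))`.  Then there is `Q ∈ k[Y][X]`, monic of the same `X`-degree, with
`Q(y, x) = 0` in `k((q))`, with `deg_Y` of each coefficient bounded by that of `P`, and agreeing
with `P` wherever the coefficients of `P` are already in `k`.

(Proof: apply a `k`-linear retraction `ρ : L → k` of `k → L` to all coefficients.)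
-/

set_option autoImplicit false

open Polynomial

namespace Fermat.Agent.S28.H207

noncomputable section

/-- Apply an additive map to the coefficients of a polynomial. -/
def polyMapAdd {A B : Type*} [Semiring A] [Semiring B] (f : A →+ B) (p : A[X]) : B[X] :=
  ∑ n ∈ p.support, Polynomial.monomial n (f (p.coeff n))

@[simp] theorem coeff_polyMapAdd {A B : Type*} [Semiring A] [Semiring B] (f : A →+ B)
    (p : A[X]) (n : ℕ) : (polyMapAdd f p).coeff n = f (p.coeff n) := by
  unfold polyMapAdd
  rw [Polynomial.finsetSum_coeff]
  simp only [Polynomial.coeff_monomial]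
  rw [Finset.sum_ite_eq']
  split_ifs with h
  · rfl
  · rw [Polynomial.mem_support_iff, not_not] at h
    rw [h, map_zero]

/-- `polyMapAdd` as an additive monoid homomorphism. -/
def polyMapAddHom {A B : Type*} [Semiring A] [Semiring B] (f : A →+ B) : A[X] →+ B[X] where
  toFun := polyMapAdd f
  map_zero' := by ext n; simp
  map_add' p q := by ext n; simp

@[simp] theorem coeff_polyMapAddHom {A B : Type*} [Semiring A] [Semiring B] (f : A →+ B)
    (p : A[X]) (n : ℕ) : (polyMapAddHom f p).coeff n = f (p.coeff n) :=
  coeff_polyMapAdd f p n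

theorem polyMapAddHom_monomial {A B : Type*} [Semiring A] [Semiring B] (f : A →+ B)
    (n : ℕ) (a : A) : polyMapAddHom f (Polynomial.monomial n a) = Polynomial.monomial n (f a) := by
  ext m
  simp only [coeff_polyMapAddHom, Polynomial.coeff_monomial]
  split_ifs
  · rfl
  · exact map_zero f

theorem natDegree_polyMapAddHom_le {A B : Type*} [Semiring A] [Semiring B] (f : A →+ B)
    (p : A[X]) : (polyMapAddHom f p).natDegree ≤ p.natDegree := by
  rw [Polynomial.natDegree_le_iff_coeff_eq_zero]
  intro n hn
  rw [coeff_polyMapAddHom, Polynomial.coeff_eq_zero_of_natDegree_lt hn, map_zero]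

variable {k L : Type*} [Field k] [Field L] [Algebra k L]

/-- coefficientwise application of an additive map to a Laurent series. -/
def laurentMapAdd (ρ : L →+ k) : LaurentSeries L →+ LaurentSeries k where
  toFun z := z.map ρ
  map_zero' := by ext n; simp
  map_add' a b := by ext n; simp

omit [Algebra k L] in
@[simp] theorem laurentMapAdd_coeff (ρ : L →+ k) (z : LaurentSeries L) (n : ℤ) :
    (laurentMapAdd ρ z).coeff n = ρ (z.coeff n) := rfl

/-- The evaluation `A[Y][X] → A((q))`, `Y ↦ y`, `X ↦ x`. -/
def biEval {A : Type*} [CommRing A] (y x : LaurentSeries A) :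
    Polynomial (Polynomial A) →+* LaurentSeries A :=
  Polynomial.eval₂RingHom (Polynomial.eval₂RingHom HahnSeries.C y) x

theorem biEval_apply {A : Type*} [CommRing A] (y x : LaurentSeries A)
    (P : Polynomial (Polynomial A)) :
    biEval y x P = P.eval₂ (Polynomial.eval₂RingHom HahnSeries.C y) x := rfl

theorem biEval_monomial_monomial {A : Type*} [CommRing A] (y x : LaurentSeries A)
    (i m : ℕ) (c : A) :
    biEval y x (Polynomial.monomial i (Polynomial.monomial m c))
      = HahnSeries.C c * (y ^ m * x ^ i) := by
  rw [biEval_apply, Polynomial.eval₂_monomial, Polynomial.coe_eval₂RingHom,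
    Polynomial.eval₂_monomial, mul_assoc]

/-- key property of the coefficientwise retraction. -/
theorem laurentMapAdd_C_mul (ρ : L →ₗ[k] k) (c : L) (z : LaurentSeries k) :
    laurentMapAdd ρ.toAddMonoidHom (HahnSeries.C c * ModularCurve.coeffMap (algebraMap k L) z)
      = HahnSeries.C (ρ c) * z := by
  ext n
  rw [laurentMapAdd_coeff, HahnSeries.C_mul_eq_smul, HahnSeries.C_mul_eq_smul,
    HahnSeries.coeff_smul, HahnSeries.coeff_smul, ModularCurve.coeffMap_coeff]
  simp only [smul_eq_mul, LinearMap.toAddMonoidHom_coe]
  rw [mul_comm c, ← Algebra.smul_def, map_smul, smul_eq_mul, mul_comm]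

/-- The descent map on bivariate polynomials. -/
def biDescent (ρ : L →ₗ[k] k) : Polynomial (Polynomial L) →+ Polynomial (Polynomial k) :=
  polyMapAddHom (polyMapAddHom ρ.toAddMonoidHom)

theorem biEval_biDescent (ρ : L →ₗ[k] k) (y x : LaurentSeries k)
    (P : Polynomial (Polynomial L)) :
    biEval y x (biDescent ρ P)
      = laurentMapAdd ρ.toAddMonoidHom
          (biEval (ModularCurve.coeffMap (algebraMap k L) y)
            (ModularCurve.coeffMap (algebraMap k L) x) P) := by
  induction P using Polynomial.induction_on' with
  | add p q hp hq => rw [map_add, map_add, map_add, map_add, hp, hq]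
  | monomial i p =>
    induction p using Polynomial.induction_on' with
    | add p q hp hq =>
      rw [map_add, map_add, map_add, map_add, map_add, hp, hq]
    | monomial m c =>
      have h1 : biDescent ρ (Polynomial.monomial i (Polynomial.monomial m c))
          = Polynomial.monomial i (Polynomial.monomial m (ρ c)) := by
        unfold biDescent
        rw [polyMapAddHom_monomial, polyMapAddHom_monomial]
        rfl
      rw [h1, biEval_monomial_monomial, biEval_monomial_monomial]
      rw [← map_pow, ← map_pow, ← map_mul]
      exact (laurentMapAdd_C_mul ρ c _).symm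

/-- **Descent (ρ-trick).** -/
theorem exists_biDescent (y x : LaurentSeries k) (P : Polynomial (Polynomial L)) (hP : P.Monic)
    (hroot : biEval (ModularCurve.coeffMap (algebraMap k L) y)
      (ModularCurve.coeffMap (algebraMap k L) x) P = 0) :
    ∃ Q : Polynomial (Polynomial k), Q.Monic ∧ Q.natDegree = P.natDegree ∧
      (∀ i, (Q.coeff i).natDegree ≤ (P.coeff i).natDegree) ∧
      (∀ i m (a : k), (P.coeff i).coeff m = algebraMap k L a → (Q.coeff i).coeff m = a) ∧
      biEval y x Q = 0 := by
  -- a k-linear retraction of `k → L`
  obtain ⟨ρ, hρ⟩ := LinearMap.exists_leftInverse_of_injective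
    (Algebra.linearMap k L) (LinearMap.ker_eq_bot.mpr (algebraMap k L).injective)
  have hρ' : ∀ a : k, ρ (algebraMap k L a) = a := fun a => by
    have := LinearMap.congr_fun hρ a
    simpa using this
  have hρ1 : ρ 1 = 1 := by
    have := hρ' 1
    rwa [map_one] at this
  have hcoeff : ∀ i m, ((biDescent ρ P).coeff i).coeff m = ρ ((P.coeff i).coeff m) := by
    intro i m
    unfold biDescent
    rw [coeff_polyMapAddHom, coeff_polyMapAddHom]
    rfl
  have hcoeff0 : ∀ i, P.coeff i = 0 → (biDescent ρ P).coeff i = 0 := by
    intro i hi
    ext m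
    rw [hcoeff, hi]
    simp
  have hdeg_le : (biDescent ρ P).natDegree ≤ P.natDegree :=
    natDegree_polyMapAddHom_le _ P
  have hlead : (biDescent ρ P).coeff P.natDegree = 1 := by
    ext m
    rw [hcoeff, hP.coeff_natDegree, Polynomial.coeff_one, Polynomial.coeff_one]
    split_ifs
    · exact hρ1
    · exact map_zero ρ
  have hdeg : (biDescent ρ P).natDegree = P.natDegree := by
    apply le_antisymm hdeg_le
    apply Polynomial.le_natDegree_of_ne_zero
    rw [hlead]
    exact one_ne_zero
  refine ⟨biDescent ρ P, ?_, hdeg, ?_, ?_, ?_⟩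
  · rw [Polynomial.Monic, Polynomial.leadingCoeff, hdeg, hlead]
  · intro i
    unfold biDescent
    rw [coeff_polyMapAddHom]
    exact natDegree_polyMapAddHom_le _ _
  · intro i m a ha
    rw [hcoeff, ha, hρ']
  · rw [biEval_biDescent, hroot, map_zero]

/-- uniqueness of a monic polynomial of minimal degree: if `P ∈ A[X]` is monic and irreducible
over an integrally closed domain `A` and `φ : A → F` is an injective ring hom to a field with
`P(x) = 0`, then any monic `Q` of degree `≤ deg P` with `Q(x) = 0` equals `P`. -/
theorem eq_of_irreducible_of_root {A F : Type*} [CommRing A] [IsDomain A] [IsIntegrallyClosed A]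
    [Field F] (φ : A →+* F) (hφ : Function.Injective φ) (x : F)
    (P Q : Polynomial A) (hP : P.Monic) (hirr : Irreducible P) (hQ : Q.Monic)
    (hdeg : Q.natDegree ≤ P.natDegree)
    (hPx : P.eval₂ φ x = 0) (hQx : Q.eval₂ φ x = 0) : Q = P := by
  let K := FractionRing A
  let _ : Algebra K F := (IsFractionRing.lift (K := K) hφ).toAlgebra
  have hcomp : (algebraMap K F).comp (algebraMap A K) = φ := by
    ext a
    exact IsFractionRing.lift_algebraMap hφ a
  have hPK : Irreducible (P.map (algebraMap A K)) :=
    (Polynomial.Monic.irreducible_iff_irreducible_map_fraction_map hP).mp hirr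
  have hPKx : Polynomial.aeval x (P.map (algebraMap A K)) = 0 := by
    rw [Polynomial.aeval_def, Polynomial.eval₂_map, hcomp, hPx]
  have hQKx : Polynomial.aeval x (Q.map (algebraMap A K)) = 0 := by
    rw [Polynomial.aeval_def, Polynomial.eval₂_map, hcomp, hQx]
  have hmin : P.map (algebraMap A K) = minpoly K x :=
    minpoly.eq_of_irreducible_of_monic hPK hPKx (hP.map _)
  have hdvd : P.map (algebraMap A K) ∣ Q.map (algebraMap A K) := by
    rw [hmin]
    exact minpoly.dvd K x hQKx
  have heq : Q.map (algebraMap A K) = P.map (algebraMap A K) := by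
    apply Polynomial.eq_of_monic_of_dvd_of_natDegree_le (hP.map _) (hQ.map _) hdvd
    rw [hP.natDegree_map, hQ.natDegree_map]
    exact hdeg
  exact Polynomial.map_injective _ (IsFractionRing.injective A K) heq

/-- naturality of `biEval` under change of coefficients. -/
theorem biEval_map {A B : Type*} [CommRing A] [CommRing B] (f : A →+* B)
    (y x : LaurentSeries A) (Q : Polynomial (Polynomial A)) :
    biEval (ModularCurve.coeffMap f y) (ModularCurve.coeffMap f x)
        (Q.map (Polynomial.mapRingHom f))
      = ModularCurve.coeffMap f (biEval y x Q) := by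
  have h : (biEval (ModularCurve.coeffMap f y) (ModularCurve.coeffMap f x)).comp
      (Polynomial.mapRingHom (Polynomial.mapRingHom f))
      = (ModularCurve.coeffMap f).comp (biEval y x) := by
    apply Polynomial.ringHom_ext
    · intro p
      have h2 : ((biEval (ModularCurve.coeffMap f y) (ModularCurve.coeffMap f x)).comp
          (Polynomial.mapRingHom (Polynomial.mapRingHom f))).comp Polynomial.C
          = ((ModularCurve.coeffMap f).comp (biEval y x)).comp Polynomial.C := by
        apply Polynomial.ringHom_ext
        · intro a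
          simp only [RingHom.comp_apply, Polynomial.coe_mapRingHom, Polynomial.map_C, biEval,
            Polynomial.coe_eval₂RingHom, Polynomial.eval₂_C]
          exact (ModularCurve.coeffMap_single f 0 a).symm
        · simp only [RingHom.comp_apply, Polynomial.coe_mapRingHom, Polynomial.map_C,
            Polynomial.map_X, biEval, Polynomial.coe_eval₂RingHom, Polynomial.eval₂_C,
            Polynomial.eval₂_X]
      exact RingHom.congr_fun h2 p
    · simp only [RingHom.comp_apply, Polynomial.coe_mapRingHom, Polynomial.map_X, biEval,
        Polynomial.coe_eval₂RingHom, Polynomial.eval₂_X]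
  exact RingHom.congr_fun h Q

/-- **Rationality of an irreducible relation.**  If `P ∈ L[Y][X]` is monic and irreducible,
`y` is transcendental over `L` and `P(y, x) = 0` for `x, y ∈ k((q))`, then `P` has
coefficients in `k`: `P = Q.map _` with `Q ∈ k[Y][X]` monic and `Q(y, x) = 0` in `k((q))`. -/
theorem exists_eq_map_of_irreducible (y x : LaurentSeries k) (P : Polynomial (Polynomial L))
    (hP : P.Monic) (hirr : Irreducible P)
    (hy : Function.Injective
      (Polynomial.eval₂RingHom HahnSeries.C (ModularCurve.coeffMap (algebraMap k L) y)))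
    (hroot : biEval (ModularCurve.coeffMap (algebraMap k L) y)
      (ModularCurve.coeffMap (algebraMap k L) x) P = 0) :
    ∃ Q : Polynomial (Polynomial k), Q.Monic ∧ biEval y x Q = 0 ∧
      P = Q.map (Polynomial.mapRingHom (algebraMap k L)) := by
  obtain ⟨Q, hQm, hQdeg, -, -, hQroot⟩ := exists_biDescent y x P hP hroot
  refine ⟨Q, hQm, hQroot, ?_⟩
  have hQ'root : biEval (ModularCurve.coeffMap (algebraMap k L) y)
      (ModularCurve.coeffMap (algebraMap k L) x)
      (Q.map (Polynomial.mapRingHom (algebraMap k L))) = 0 := by
    rw [biEval_map, hQroot, map_zero]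
  have hQ'm : (Q.map (Polynomial.mapRingHom (algebraMap k L))).Monic := hQm.map _
  have hQ'deg : (Q.map (Polynomial.mapRingHom (algebraMap k L))).natDegree ≤ P.natDegree := by
    rw [hQm.natDegree_map, hQdeg]
  exact (eq_of_irreducible_of_root
    (Polynomial.eval₂RingHom HahnSeries.C (ModularCurve.coeffMap (algebraMap k L) y)) hy
    (ModularCurve.coeffMap (algebraMap k L) x) P _ hP hirr hQ'm hQ'deg hroot hQ'root).symm

end

end Fermat.Agent.S28.H207
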