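import Mathlib.NumberTheory.ModularForms.CongruenceSubgroups
import Mathlib.LinearAlgebra.Matrix.SpecialLinearGroup
import Mathlib.Data.Nat.Prime.Int
import Mathlib.Tactic

/-!
# A group lemma for `SL(2, ℤ)` (piece (Grp) of the S28 plan)

If a subgroup `D ≤ SL(2, ℤ)` contains `T = [[1,1],[0,1]]` (or just a power `T ^ e` with `e`
prime to `N`) and, for every prime `p ∣ N`, is not contained in `Γ₀(p)`, then
`SL(2, ℤ) = D · Γ₀(N)`.

The proof is elementary: by induction on the prime factorisation of `N` one shows that the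
first column of any `g` can be moved by `D` to a column with top entry `≡ 0 mod N`
(i.e. `D` acts transitively on `ℙ¹(ℤ/N)` with base point `(0 : 1)`).

Main statements (all Mathlib-only, no extra hypotheses):
* `exists_mul_lowerLeft_dvd`     : `∃ d ∈ D, (N : ℤ) ∣ (d * g) 1 0`
* `exists_mul_mem_Gamma0`        : `∃ d ∈ D, d * g ∈ Gamma0 N`
* `exists_mul_mem_Gamma0_right`  : `∃ d ∈ D, g * d ∈ Gamma0 N`
* `exists_eq_mul_Gamma0`         : `∃ d ∈ D, ∃ γ ∈ Gamma0 N, g = d * γ`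
* `exists_eq_Gamma0_mul`         : `∃ γ ∈ Gamma0 N, ∃ d ∈ D, g = γ * d`
* `..._of_zpow` variants with `T ^ e ∈ D`, `e` prime to every prime factor of `N`.
-/

open scoped MatrixGroups
open Matrix ModularGroup

namespace Fermat.Agent.S28.H207

/-- top-left entry of `T ^ n * g`. -/
theorem T_zpow_mul_apply_zero_zero (n : ℤ) (g : SL(2, ℤ)) :
    (T ^ n * g) 0 0 = g 0 0 + n * g 1 0 := by
  simp [coe_T_zpow, Matrix.mul_apply, Fin.sum_univ_two]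

/-- bottom-left entry of `T ^ n * g`. -/
theorem T_zpow_mul_apply_one_zero (n : ℤ) (g : SL(2, ℤ)) :
    (T ^ n * g) 1 0 = g 1 0 := by
  simp

theorem sl2_mul_apply_zero_zero (a b : SL(2, ℤ)) :
    (a * b) 0 0 = a 0 0 * b 0 0 + a 0 1 * b 1 0 := by
  simp [Matrix.mul_apply, Fin.sum_univ_two]

theorem sl2_mul_apply_one_zero (a b : SL(2, ℤ)) :
    (a * b) 1 0 = a 1 0 * b 0 0 + a 1 1 * b 1 0 := by
  simp [Matrix.mul_apply, Fin.sum_univ_two]

theorem sl2_det_eq (g : SL(2, ℤ)) : g 0 0 * g 1 1 - g 0 1 * g 1 0 = 1 := by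
  have := g.2
  rw [Matrix.det_fin_two] at this
  exact this

theorem sl2_inv_apply_one_zero (g : SL(2, ℤ)) : (g⁻¹) 1 0 = - g 1 0 := by
  simp [Matrix.SpecialLinearGroup.coe_inv, Matrix.adjugate_fin_two]

theorem sl2_inv_apply_one_one (g : SL(2, ℤ)) : (g⁻¹) 1 1 = g 0 0 := by
  simp [Matrix.SpecialLinearGroup.coe_inv, Matrix.adjugate_fin_two]

/-- `QProp D N`: every first column can be moved by `D` to have top entry divisible by `N`. -/
def QProp (D : Subgroup SL(2, ℤ)) (N : ℕ) : Prop :=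
  ∀ g : SL(2, ℤ), ∃ d ∈ D, (N : ℤ) ∣ (d * g) 0 0

theorem qProp_one (D : Subgroup SL(2, ℤ)) : QProp D 1 := by
  intro g
  exact ⟨1, D.one_mem, by simp⟩

theorem natPrime_not_dvd_one_int {p : ℕ} (hp : p.Prime) : ¬ (p : ℤ) ∣ 1 := by
  intro h
  have := Int.natCast_dvd_natCast.mp (by simpa using h : ((p : ℕ) : ℤ) ∣ ((1 : ℕ) : ℤ))
  exact hp.one_lt.ne' (Nat.dvd_one.mp this)

/-- The two entries of the first column of `g ∈ SL(2, ℤ)` cannot both be divisible by `p`. -/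
theorem not_dvd_of_dvd_left {p : ℕ} (hp : p.Prime) (g : SL(2, ℤ)) (h : (p : ℤ) ∣ g 0 0) :
    ¬ (p : ℤ) ∣ g 1 0 := by
  intro h'
  apply natPrime_not_dvd_one_int hp
  rw [← sl2_det_eq g]
  exact dvd_sub (Dvd.dvd.mul_right h _) (Dvd.dvd.mul_left h' _)

theorem not_dvd_of_dvd_right {p : ℕ} (hp : p.Prime) (g : SL(2, ℤ)) (h : (p : ℤ) ∣ g 1 0) :
    ¬ (p : ℤ) ∣ g 0 0 := fun h' => not_dvd_of_dvd_left hp g h' h

/-- bottom row version: `p` cannot divide both entries of the bottom row. -/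
theorem not_dvd_bottom_of_dvd {p : ℕ} (hp : p.Prime) (g : SL(2, ℤ)) (h : (p : ℤ) ∣ g 1 0) :
    ¬ (p : ℤ) ∣ g 1 1 := by
  intro h'
  apply natPrime_not_dvd_one_int hp
  rw [← sl2_det_eq g]
  exact dvd_sub (Dvd.dvd.mul_left h' _) (Dvd.dvd.mul_left h _)

/-- Step A: find `d ∈ D` with `M ∣ (d g)₀₀` and `p ∤ (d g)₁₀`. -/
theorem exists_step_A (D : Subgroup SL(2, ℤ)) (e : ℤ) (hT : T ^ e ∈ D) (M p : ℕ) (hp : p.Prime)
    (hpe : ¬ (p : ℤ) ∣ e)
    (hh : ∃ h ∈ D, ¬ (p : ℤ) ∣ h 1 0) (hQ : QProp D M) (g : SL(2, ℤ)) :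
    ∃ d ∈ D, (M : ℤ) ∣ (d * g) 0 0 ∧ ¬ (p : ℤ) ∣ (d * g) 1 0 := by
  have hpZ : Prime (p : ℤ) := Nat.prime_iff_prime_int.mp hp
  by_cases hpM : p ∣ M
  · -- case (i)
    obtain ⟨d, hd, hdiv⟩ := hQ g
    refine ⟨d, hd, hdiv, ?_⟩
    have : (p : ℤ) ∣ (d * g) 0 0 := dvd_trans (Int.natCast_dvd_natCast.mpr hpM) hdiv
    exact not_dvd_of_dvd_left hp (d * g) this
  · -- case (ii)
    -- first find e₁ ∈ D with p ∤ (e₁ g)₁₀
    obtain ⟨e₁, he₁, hne₁⟩ : ∃ e₁ ∈ D, ¬ (p : ℤ) ∣ (e₁ * g) 1 0 := by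
      by_cases hg : (p : ℤ) ∣ g 1 0
      · obtain ⟨h, hhD, hh10⟩ := hh
        refine ⟨h, hhD, ?_⟩
        rw [sl2_mul_apply_one_zero]
        intro hcontra
        have h1 : (p : ℤ) ∣ h 1 0 * g 0 0 := by
          have := dvd_sub hcontra (Dvd.dvd.mul_left hg (h 1 1))
          simpa using this
        rcases hpZ.dvd_or_dvd h1 with h2 | h2
        · exact hh10 h2
        · exact not_dvd_of_dvd_right hp g hg h2
      · exact ⟨1, D.one_mem, by simpa using hg⟩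
    set g₁ := e₁ * g with hg₁
    obtain ⟨d, hd, hdiv⟩ := hQ g₁
    by_cases hc : (p : ℤ) ∣ (d * g₁) 1 0
    · -- replace g₁ by T^(e M) g₁
      have hTM : T ^ (e * (M : ℤ)) ∈ D := by
        rw [zpow_mul]; exact D.zpow_mem hT _
      refine ⟨d * T ^ (e * (M : ℤ)) * e₁, D.mul_mem (D.mul_mem hd hTM) he₁, ?_, ?_⟩
      · have : d * T ^ (e * (M : ℤ)) * e₁ * g = d * (T ^ (e * (M : ℤ)) * g₁) := by
          rw [hg₁]; group
        rw [this, sl2_mul_apply_zero_zero, T_zpow_mul_apply_zero_zero, T_zpow_mul_apply_one_zero]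
        rw [sl2_mul_apply_zero_zero] at hdiv
        have : d 0 0 * (g₁ 0 0 + e * (M : ℤ) * g₁ 1 0) + d 0 1 * g₁ 1 0
            = (d 0 0 * g₁ 0 0 + d 0 1 * g₁ 1 0) + (M : ℤ) * (e * d 0 0 * g₁ 1 0) := by ring
        rw [this]
        exact dvd_add hdiv (dvd_mul_right _ _)
      · have : d * T ^ (e * (M : ℤ)) * e₁ * g = d * (T ^ (e * (M : ℤ)) * g₁) := by
          rw [hg₁]; group
        rw [this, sl2_mul_apply_one_zero, T_zpow_mul_apply_zero_zero, T_zpow_mul_apply_one_zero]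
        rw [sl2_mul_apply_one_zero] at hc
        have hd10 : ¬ (p : ℤ) ∣ d 1 0 := by
          intro hd10
          have h1 : (p : ℤ) ∣ d 1 1 * g₁ 1 0 := by
            have := dvd_sub hc (Dvd.dvd.mul_right hd10 (g₁ 0 0))
            simpa using this
          rcases hpZ.dvd_or_dvd h1 with h2 | h2
          · exact not_dvd_bottom_of_dvd hp d hd10 h2
          · exact hne₁ h2
        have : d 1 0 * (g₁ 0 0 + e * (M : ℤ) * g₁ 1 0) + d 1 1 * g₁ 1 0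
            = (d 1 0 * g₁ 0 0 + d 1 1 * g₁ 1 0) + e * ((M : ℤ) * (d 1 0 * g₁ 1 0)) := by ring
        rw [this]
        intro hcontra
        have h3 : (p : ℤ) ∣ e * ((M : ℤ) * (d 1 0 * g₁ 1 0)) := by
          have := dvd_sub hcontra hc
          simpa using this
        rcases hpZ.dvd_or_dvd h3 with h4 | h4
        · exact hpe h4
        · rcases hpZ.dvd_or_dvd h4 with h5 | h5
          · exact hpM (Int.natCast_dvd_natCast.mp h5)
          · rcases hpZ.dvd_or_dvd h5 with h6 | h6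
            · exact hd10 h6
            · exact hne₁ h6
    · refine ⟨d * e₁, D.mul_mem hd he₁, ?_, ?_⟩
      · rw [mul_assoc]; exact hdiv
      · rw [mul_assoc]; exact hc

/-- The induction step `Q(M) ⇒ Q(M * p)`. -/
theorem qProp_mul_prime (D : Subgroup SL(2, ℤ)) (e : ℤ) (hT : T ^ e ∈ D) (M p : ℕ)
    (hp : p.Prime) (hpe : ¬ (p : ℤ) ∣ e)
    (hh : ∃ h ∈ D, ¬ (p : ℤ) ∣ h 1 0) (hQ : QProp D M) : QProp D (M * p) := by
  intro g
  have hpZ : Prime (p : ℤ) := Nat.prime_iff_prime_int.mp hp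
  obtain ⟨d, hd, ⟨a', ha'⟩, hc⟩ := exists_step_A D e hT M p hp hpe hh hQ g
  -- Bezout: u * (e * c) + v * p = 1
  have hcop : IsCoprime (e * (d * g) 1 0) (p : ℤ) := by
    rw [isCoprime_comm]
    refine (Prime.coprime_iff_not_dvd hpZ).mpr ?_
    intro hcontra
    rcases hpZ.dvd_or_dvd hcontra with h | h
    · exact hpe h
    · exact hc h
  obtain ⟨u, v, huv⟩ := hcop
  have hmem : T ^ (e * ((M : ℤ) * (-a' * u))) ∈ D := by
    rw [zpow_mul]; exact D.zpow_mem hT _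
  refine ⟨T ^ (e * ((M : ℤ) * (-a' * u))) * d, D.mul_mem hmem hd, ?_⟩
  rw [mul_assoc, T_zpow_mul_apply_zero_zero, ha']
  refine ⟨a' * v, ?_⟩
  have : (a' : ℤ) * (u * (e * (d * g) 1 0) + v * p) = a' := by rw [huv, mul_one]
  push_cast
  linear_combination (-(↑M : ℤ)) * this

theorem qProp_of_forall_prime (D : Subgroup SL(2, ℤ)) (e : ℤ) (hT : T ^ e ∈ D) :
    ∀ N : ℕ, N ≠ 0 → (∀ p : ℕ, p.Prime → p ∣ N → ¬ (p : ℤ) ∣ e) →
      (∀ p : ℕ, p.Prime → p ∣ N → ∃ h ∈ D, ¬ (p : ℤ) ∣ h 1 0) → QProp D N := by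
  intro N
  induction N using Nat.strong_induction_on with
  | _ N ih =>
    intro hN he hD
    by_cases h1 : N = 1
    · subst h1; exact qProp_one D
    · have hp : (N.minFac).Prime := Nat.minFac_prime h1
      have hdiv : N.minFac ∣ N := Nat.minFac_dvd N
      obtain ⟨M, hM⟩ := hdiv
      have hM0 : M ≠ 0 := by
        rintro rfl
        exact hN (by simpa using hM)
      have hlt : M < N := by
        have h2 : 2 ≤ N.minFac := hp.two_le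
        have hMpos : 0 < M := Nat.pos_of_ne_zero hM0
        calc M < N.minFac * M := by nlinarith
          _ = N := hM.symm
      have hsub : ∀ p : ℕ, p ∣ M → p ∣ N := fun p hpM => by
        rw [hM]; exact Dvd.dvd.mul_left hpM _
      have hQM : QProp D M := ih M hlt hM0 (fun p hpp hpM => he p hpp (hsub p hpM))
        (fun p hpp hpM => hD p hpp (hsub p hpM))
      have := qProp_mul_prime D e hT M N.minFac hp (he _ hp (Nat.minFac_dvd N))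
        (hD _ hp (Nat.minFac_dvd N)) hQM
      rw [hM, mul_comm]
      exact this

/-- **(Grp)**, entry form, general version: `T ^ e ∈ D` with `e` prime to `N`. -/
theorem exists_mul_lowerLeft_dvd_of_zpow (N : ℕ) (hN : N ≠ 0) (D : Subgroup SL(2, ℤ))
    (e : ℤ) (hT : ModularGroup.T ^ e ∈ D)
    (he : ∀ p : ℕ, p.Prime → p ∣ N → ¬ (p : ℤ) ∣ e)
    (hD : ∀ p : ℕ, p.Prime → p ∣ N → ∃ h ∈ D, ¬ (p : ℤ) ∣ h 1 0) :
    ∀ g : SL(2, ℤ), ∃ d ∈ D, (N : ℤ) ∣ (d * g) 1 0 := by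
  intro g
  have hQ := qProp_of_forall_prime D e hT N hN he hD
  obtain ⟨d₁, hd₁, hdiv₁⟩ := hQ g
  obtain ⟨d₂, hd₂, hdiv₂⟩ := hQ 1
  rw [mul_one] at hdiv₂
  refine ⟨d₂⁻¹ * d₁, D.mul_mem (D.inv_mem hd₂) hd₁, ?_⟩
  rw [mul_assoc, sl2_mul_apply_one_zero, sl2_inv_apply_one_zero, sl2_inv_apply_one_one]
  exact dvd_add (Dvd.dvd.mul_left hdiv₁ _) (Dvd.dvd.mul_right hdiv₂ _)

/-- **(Grp)**, entry form. If `D ≤ SL(2, ℤ)` contains `T` and for each prime `p ∣ N` some element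
of `D` has bottom-left entry not divisible by `p`, then every `g` can be moved by `D` into
`Γ₀(N)`. -/
theorem exists_mul_lowerLeft_dvd (N : ℕ) (hN : N ≠ 0) (D : Subgroup SL(2, ℤ))
    (hT : ModularGroup.T ∈ D)
    (hD : ∀ p : ℕ, p.Prime → p ∣ N → ∃ h ∈ D, ¬ (p : ℤ) ∣ h 1 0) :
    ∀ g : SL(2, ℤ), ∃ d ∈ D, (N : ℤ) ∣ (d * g) 1 0 :=
  exists_mul_lowerLeft_dvd_of_zpow N hN D 1 (by simpa using hT)
    (fun _ hp _ => natPrime_not_dvd_one_int hp) hD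

theorem mem_Gamma0_iff_dvd (N : ℕ) (g : SL(2, ℤ)) :
    g ∈ CongruenceSubgroup.Gamma0 N ↔ (N : ℤ) ∣ g 1 0 := by
  rw [CongruenceSubgroup.Gamma0_mem]
  exact ZMod.intCast_zmod_eq_zero_iff_dvd _ _

/-- **(Grp)**, `Γ₀` form (left), general version. -/
theorem exists_mul_mem_Gamma0_of_zpow (N : ℕ) (hN : N ≠ 0) (D : Subgroup SL(2, ℤ))
    (e : ℤ) (hT : ModularGroup.T ^ e ∈ D) (he : IsCoprime e (N : ℤ))
    (hD : ∀ p : ℕ, p.Prime → p ∣ N → ∃ d ∈ D, d ∉ CongruenceSubgroup.Gamma0 p)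
    (g : SL(2, ℤ)) : ∃ d ∈ D, d * g ∈ CongruenceSubgroup.Gamma0 N := by
  have hD' : ∀ p : ℕ, p.Prime → p ∣ N → ∃ h ∈ D, ¬ (p : ℤ) ∣ h 1 0 := by
    intro p hp hpN
    obtain ⟨d, hd, hdG⟩ := hD p hp hpN
    exact ⟨d, hd, fun hdiv => hdG ((mem_Gamma0_iff_dvd p d).mpr hdiv)⟩
  have he' : ∀ p : ℕ, p.Prime → p ∣ N → ¬ (p : ℤ) ∣ e := by
    intro p hp hpN hpe
    have h1 : IsCoprime (p : ℤ) (p : ℤ) :=
      (he.of_isCoprime_of_dvd_left hpe).of_isCoprime_of_dvd_right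
        (Int.natCast_dvd_natCast.mpr hpN)
    have h2 : IsUnit (p : ℤ) := isCoprime_self.mp h1
    exact (Nat.prime_iff_prime_int.mp hp).not_isUnit h2
  obtain ⟨d, hd, hdiv⟩ := exists_mul_lowerLeft_dvd_of_zpow N hN D e hT he' hD' g
  exact ⟨d, hd, (mem_Gamma0_iff_dvd N _).mpr hdiv⟩

/-- **(Grp)**, `Γ₀` form (left): `∃ d ∈ D, d * g ∈ Γ₀(N)`. -/
theorem exists_mul_mem_Gamma0 (N : ℕ) (hN : N ≠ 0) (D : Subgroup SL(2, ℤ))
    (hT : ModularGroup.T ∈ D)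
    (hD : ∀ p : ℕ, p.Prime → p ∣ N → ∃ d ∈ D, d ∉ CongruenceSubgroup.Gamma0 p)
    (g : SL(2, ℤ)) : ∃ d ∈ D, d * g ∈ CongruenceSubgroup.Gamma0 N :=
  exists_mul_mem_Gamma0_of_zpow N hN D 1 (by simpa using hT) isCoprime_one_left hD g

/-- **(Grp)**, `Γ₀` form (right): `∃ d ∈ D, g * d ∈ Γ₀(N)`. -/
theorem exists_mul_mem_Gamma0_right (N : ℕ) (hN : N ≠ 0) (D : Subgroup SL(2, ℤ))
    (hT : ModularGroup.T ∈ D)
    (hD : ∀ p : ℕ, p.Prime → p ∣ N → ∃ d ∈ D, d ∉ CongruenceSubgroup.Gamma0 p)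
    (g : SL(2, ℤ)) : ∃ d ∈ D, g * d ∈ CongruenceSubgroup.Gamma0 N := by
  obtain ⟨d, hd, hmem⟩ := exists_mul_mem_Gamma0 N hN D hT hD g⁻¹
  refine ⟨d⁻¹, D.inv_mem hd, ?_⟩
  have : g * d⁻¹ = (d * g⁻¹)⁻¹ := by group
  rw [this]
  exact (CongruenceSubgroup.Gamma0 N).inv_mem hmem

/-- **(Grp)**, factorisation form: `SL(2, ℤ) = D · Γ₀(N)`. -/
theorem exists_eq_mul_Gamma0 (N : ℕ) (hN : N ≠ 0) (D : Subgroup SL(2, ℤ))
    (hT : ModularGroup.T ∈ D)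
    (hD : ∀ p : ℕ, p.Prime → p ∣ N → ∃ d ∈ D, d ∉ CongruenceSubgroup.Gamma0 p)
    (g : SL(2, ℤ)) : ∃ d ∈ D, ∃ γ ∈ CongruenceSubgroup.Gamma0 N, g = d * γ := by
  obtain ⟨d, hd, hmem⟩ := exists_mul_mem_Gamma0 N hN D hT hD g
  exact ⟨d⁻¹, D.inv_mem hd, d * g, hmem, by group⟩

/-- **(Grp)**, right-handed factorisation form: `SL(2, ℤ) = Γ₀(N) · D`. -/
theorem exists_eq_Gamma0_mul (N : ℕ) (hN : N ≠ 0) (D : Subgroup SL(2, ℤ))
    (hT : ModularGroup.T ∈ D)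
    (hD : ∀ p : ℕ, p.Prime → p ∣ N → ∃ d ∈ D, d ∉ CongruenceSubgroup.Gamma0 p)
    (g : SL(2, ℤ)) : ∃ γ ∈ CongruenceSubgroup.Gamma0 N, ∃ d ∈ D, g = γ * d := by
  obtain ⟨d, hd, hmem⟩ := exists_mul_mem_Gamma0_right N hN D hT hD g
  exact ⟨g * d, hmem, d⁻¹, D.inv_mem hd, by group⟩

end Fermat.Agent.S28.H207
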