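import Mathlib.NumberTheory.ArithmeticFunction.Moebius
import Mathlib.NumberTheory.ArithmeticFunction.Misc
import Mathlib.Data.Nat.Totient
import Mathlib.Tactic

/-!
# Arithmetic of the single-pole modular unit (piece (1) of the S28 shortcut route)

For `d ∣ N` the modular unit `u_d = Δ(q^d)/Δ(q)` has, at the cusp of `X₀(N)` attached to a coset
`θ = Γ₀(N)γ` with `c = γ₁₀`, order (in the local parameter `t = q^{1/N}`)

  `cuspOrd N d c = (N / d) * gcd(d, c)² - N`.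

We show that the unit `u = ∏_{d ∣ N} u_d ^ unitExp N d`, `unitExp N d = - μ(N/d) * d`, has order
`N * φ(N) > 0` at every cusp with `N ∤ c` and order `N * φ(N) - N * J₂(N) < 0` at the cusp `∞`
(`N ∣ c`), for `N > 1`.  Everything here is elementary integer arithmetic.
-/

open ArithmeticFunction Finset
open scoped ArithmeticFunction.Moebius

namespace Fermat.Agent.S28.H207

/-- `∑_{d ∣ N} μ(N/d) d = φ(N)`. -/
theorem sum_moebius_div_mul_self (N : ℕ) (hN : 0 < N) :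
    ∑ d ∈ N.divisors, (μ (N / d) : ℤ) * (d : ℤ) = (Nat.totient N : ℤ) := by
  have h := (sum_eq_iff_sum_mul_moebius_eq (R := ℤ) (f := fun n => (Nat.totient n : ℤ))
    (g := fun n => (n : ℤ))).mp (by
      intro n _
      have := Nat.sum_totient n
      exact_mod_cast this) N hN
  rw [← h]
  exact (Nat.sum_divisorsAntidiagonal' (fun a b => (μ a : ℤ) * (b : ℤ)) (n := N)).symm

/-- Key gcd step: if `c = p^e c'` with `p ∤ c'` and `p^e ∣ A` then `gcd (p * A) c = gcd A c`. -/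
theorem gcd_prime_mul_eq {p : ℕ} (hp : p.Prime) (e c' A : ℕ) (hc' : ¬ p ∣ c')
    (hA : p ^ e ∣ A) : Nat.gcd (p * A) (p ^ e * c') = Nat.gcd A (p ^ e * c') := by
  obtain ⟨A', rfl⟩ := hA
  have hcop : Nat.Coprime p c' := (Nat.Prime.coprime_iff_not_dvd hp).mpr hc'
  have h1 : p * (p ^ e * A') = p ^ e * (p * A') := by ring
  rw [h1, Nat.gcd_mul_left, Nat.gcd_mul_left, Nat.Coprime.gcd_mul_left_cancel A' hcop]

/-- Existence of the witnessing prime for `¬ N ∣ c`. -/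
theorem exists_prime_pow_of_not_dvd (N c : ℕ) (hc : ¬ N ∣ c) :
    ∃ (p e c' : ℕ), p.Prime ∧ c = p ^ e * c' ∧ ¬ p ∣ c' ∧ p ^ (e + 1) ∣ N := by
  have hc0 : c ≠ 0 := by
    rintro rfl
    exact hc (dvd_zero N)
  rw [Nat.dvd_iff_prime_pow_dvd_dvd] at hc
  push Not at hc
  obtain ⟨p, k, hp, hkN, hkc⟩ := hc
  obtain ⟨e, c', hpc', hce⟩ := Nat.exists_eq_pow_mul_and_not_dvd hc0 p hp.ne_one
  refine ⟨p, e, c', hp, hce, hpc', ?_⟩
  have hlt : e < k := by
    by_contra hle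
    push Not at hle
    apply hkc
    rw [hce]
    exact Dvd.dvd.mul_right (pow_dvd_pow p hle) _
  exact dvd_trans (pow_dvd_pow p hlt) hkN

/-- `N ∤ c ⟹ ∑_{m ∣ N} μ(m) gcd(N/m, c)² = 0` (sign-reversing involution `m ↔ m p`). -/
theorem sum_moebius_mul_gcd_div_sq_eq_zero (N c : ℕ) (hN : N ≠ 0) (hc : ¬ N ∣ c) :
    ∑ m ∈ N.divisors, (μ m : ℤ) * ((Nat.gcd (N / m) c : ℕ) : ℤ) ^ 2 = 0 := by
  obtain ⟨p, e, c', hp, rfl, hpc', hpN⟩ := exists_prime_pow_of_not_dvd N c hc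
  have hpN1 : p ∣ N := dvd_trans (dvd_pow_self p (Nat.succ_ne_zero e)) hpN
  -- restrict to squarefree divisors
  rw [← Finset.sum_filter_of_ne (p := fun m => Squarefree m)]
  swap
  · intro m _ hm
    by_contra hsq
    apply hm
    rw [moebius_eq_zero_of_not_squarefree hsq]
    simp
  -- key facts for squarefree `m ∣ N` with `p ∤ m`
  have key : ∀ m : ℕ, m ∣ N → Squarefree m → ¬ p ∣ m →
      (m * p ∣ N ∧ Squarefree (m * p) ∧
        (μ m : ℤ) * ((Nat.gcd (N / m) (p ^ e * c') : ℕ) : ℤ) ^ 2 +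
        (μ (m * p) : ℤ) * ((Nat.gcd (N / (m * p)) (p ^ e * c') : ℕ) : ℤ) ^ 2 = 0) := by
    intro m hmN hmsq hpm
    have hcop : Nat.Coprime m p := ((Nat.Prime.coprime_iff_not_dvd hp).mpr hpm).symm
    have hmp : m * p ∣ N := Nat.Coprime.mul_dvd_of_dvd_of_dvd hcop hmN hpN1
    refine ⟨hmp, ?_, ?_⟩
    · exact (Nat.squarefree_mul hcop).mpr ⟨hmsq, hp.prime.squarefree⟩
    · obtain ⟨A, hA⟩ := hmp
      have hm0 : 0 < m := Nat.pos_of_ne_zero (by rintro rfl; simp at hmN; exact hN hmN)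
      have hmp0 : 0 < m * p := Nat.mul_pos hm0 hp.pos
      have hNm : N / m = p * A := by
        rw [hA, mul_assoc, Nat.mul_div_cancel_left _ hm0]
      have hNmp : N / (m * p) = A := by
        rw [hA, Nat.mul_div_cancel_left _ hmp0]
      have hpeA : p ^ e ∣ A := by
        have h1 : p ^ (e + 1) ∣ m * (p * A) := by rw [← mul_assoc, ← hA]; exact hpN
        have h2 : p ^ (e + 1) ∣ p * A :=
          (Nat.Coprime.pow_left (e + 1) hcop.symm).dvd_of_dvd_mul_left h1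
        rw [pow_succ, mul_comm (p ^ e) p] at h2
        exact (Nat.mul_dvd_mul_iff_left hp.pos).mp h2
      rw [hNm, hNmp, gcd_prime_mul_eq hp e c' A hpc' hpeA]
      rw [isMultiplicative_moebius.map_mul_of_coprime hcop, moebius_apply_prime hp]
      ring
  refine Finset.sum_involution (fun m _ => if p ∣ m then m / p else m * p) ?_ ?_ ?_ ?_
  · intro m hm
    rw [Finset.mem_filter, Nat.mem_divisors] at hm
    obtain ⟨⟨hmN, _⟩, hmsq⟩ := hm
    by_cases hpm : p ∣ m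
    · simp only [hpm, if_true]
      obtain ⟨m', rfl⟩ := hpm
      have hm'N : m' ∣ N := dvd_trans (dvd_mul_left m' p) hmN
      have hm'sq : Squarefree m' := hmsq.of_mul_right
      have hpm' : ¬ p ∣ m' := by
        intro h
        obtain ⟨m'', rfl⟩ := h
        have : p * p ∣ p * (p * m'') := ⟨m'', by ring⟩
        exact hp.prime.not_isUnit (hmsq p this)
      have := (key m' hm'N hm'sq hpm').2.2
      rw [Nat.mul_div_cancel_left _ hp.pos]
      rw [mul_comm p m']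
      rw [add_comm]
      exact this
    · simp only [hpm, if_false]
      exact (key m hmN hmsq hpm).2.2
  · intro m hm _
    rw [Finset.mem_filter, Nat.mem_divisors] at hm
    obtain ⟨⟨hmN, _⟩, hmsq⟩ := hm
    have hm0 : 0 < m := Nat.pos_of_ne_zero (by rintro rfl; simp at hmN; exact hN hmN)
    by_cases hpm : p ∣ m
    · simp only [hpm, if_true]
      exact (Nat.div_lt_self hm0 hp.one_lt).ne
    · simp only [hpm, if_false]
      intro h
      have : m * p = m * 1 := by rw [h, mul_one]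
      exact hp.ne_one (Nat.eq_of_mul_eq_mul_left hm0 this)
  · intro m hm
    rw [Finset.mem_filter, Nat.mem_divisors] at hm ⊢
    obtain ⟨⟨hmN, _⟩, hmsq⟩ := hm
    by_cases hpm : p ∣ m
    · simp only [hpm, if_true]
      obtain ⟨m', rfl⟩ := hpm
      rw [Nat.mul_div_cancel_left _ hp.pos]
      exact ⟨⟨dvd_trans (dvd_mul_left m' p) hmN, hN⟩, hmsq.of_mul_right⟩
    · simp only [hpm, if_false]
      exact ⟨⟨(key m hmN hmsq hpm).1, hN⟩, (key m hmN hmsq hpm).2.1⟩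
  · intro m hm
    rw [Finset.mem_filter, Nat.mem_divisors] at hm
    obtain ⟨⟨hmN, _⟩, hmsq⟩ := hm
    by_cases hpm : p ∣ m
    · simp only [hpm, if_true]
      obtain ⟨m', rfl⟩ := hpm
      have hpm' : ¬ p ∣ m' := by
        intro h
        obtain ⟨m'', rfl⟩ := h
        have : p * p ∣ p * (p * m'') := ⟨m'', by ring⟩
        exact hp.prime.not_isUnit (hmsq p this)
      rw [Nat.mul_div_cancel_left _ hp.pos]
      simp only [hpm', if_false]
      exact mul_comm _ _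
    · simp only [hpm, if_false]
      have : p ∣ m * p := dvd_mul_left p m
      simp only [this, if_true]
      exact Nat.mul_div_cancel _ hp.pos

/-- `N ∤ c ⟹ ∑_{d ∣ N} μ(N/d) gcd(d, c)² = 0`. -/
theorem sum_moebius_div_mul_gcd_sq_eq_zero (N c : ℕ) (hN : N ≠ 0) (hc : ¬ N ∣ c) :
    ∑ d ∈ N.divisors, (μ (N / d) : ℤ) * ((Nat.gcd d c : ℕ) : ℤ) ^ 2 = 0 := by
  rw [← sum_moebius_mul_gcd_div_sq_eq_zero N c hN hc]
  rw [← Nat.sum_div_divisors N (fun m => (μ m : ℤ) * ((Nat.gcd (N / m) c : ℕ) : ℤ) ^ 2)]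
  refine Finset.sum_congr rfl ?_
  intro d hd
  rw [Nat.mem_divisors] at hd
  rw [Nat.div_div_self hd.1 hN]

/-! ### Jordan's totient `J₂` and the comparison `φ(N) < J₂(N)` -/

/-- Jordan's totient `J₂(N) = ∑_{d ∣ N} μ(N/d) d²`. -/
def jordanTwo (N : ℕ) : ℤ := ∑ d ∈ N.divisors, (μ (N / d) : ℤ) * (d : ℤ) ^ 2

/-- `J₂` as an arithmetic function (Dirichlet convolution `μ * id²`). -/
def jordanTwoAF : ArithmeticFunction ℤ :=
  (μ : ArithmeticFunction ℤ) * ((pow 2 : ArithmeticFunction ℕ) : ArithmeticFunction ℤ)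

theorem jordanTwoAF_isMultiplicative : jordanTwoAF.IsMultiplicative :=
  isMultiplicative_moebius.mul isMultiplicative_pow.natCast

theorem jordanTwoAF_apply (N : ℕ) : jordanTwoAF N = jordanTwo N := by
  unfold jordanTwoAF jordanTwo
  rw [ArithmeticFunction.mul_apply]
  rw [Nat.sum_divisorsAntidiagonal' (fun a b => (μ a : ℤ) *
    (((pow 2 : ArithmeticFunction ℕ) : ArithmeticFunction ℤ) b))]
  refine Finset.sum_congr rfl ?_
  intro d _
  simp [ArithmeticFunction.natCoe_apply, ArithmeticFunction.pow_apply]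

/-- value of `μ * f` at a prime power. -/
theorem sum_moebius_mul_prime_pow (f : ℕ → ℤ) {p : ℕ} (hp : p.Prime) (k : ℕ) :
    ∑ d ∈ (p ^ (k + 1)).divisors, (μ (p ^ (k + 1) / d) : ℤ) * f d
      = f (p ^ (k + 1)) - f (p ^ k) := by
  rw [← Nat.sum_div_divisors (p ^ (k + 1)) (fun m => (μ (p ^ (k + 1) / m) : ℤ) * f m)]
  rw [Nat.sum_divisors_prime_pow hp]
  rw [Finset.sum_range_succ', Finset.sum_range_succ']
  have hp0 : 0 < p := hp.pos
  have h0 : p ^ (k + 1) / p ^ 0 = p ^ (k + 1) := by simp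
  have h1 : p ^ (k + 1) / p ^ (0 + 1) = p ^ k := by
    rw [zero_add, pow_one, pow_succ, Nat.mul_div_cancel _ hp0]
  have hself : ∀ j : ℕ, j ≤ k + 1 → p ^ (k + 1) / (p ^ (k + 1) / p ^ j) = p ^ j := by
    intro j hj
    exact Nat.div_div_self (pow_dvd_pow p hj) (pow_pos hp0 _).ne'
  rw [Finset.sum_eq_zero]
  · rw [hself 0 (Nat.zero_le _), hself (0 + 1) (by omega), h0, h1]
    simp [moebius_apply_prime hp]
    ring
  · intro x hx
    rw [Finset.mem_range] at hx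
    rw [hself (x + 1 + 1) (by omega)]
    rw [moebius_apply_prime_pow hp (by omega)]
    simp

theorem jordanTwo_prime_pow {p : ℕ} (hp : p.Prime) (k : ℕ) :
    jordanTwo (p ^ (k + 1)) = ((p : ℤ) ^ (k + 1)) ^ 2 - ((p : ℤ) ^ k) ^ 2 := by
  unfold jordanTwo
  rw [sum_moebius_mul_prime_pow (fun d => (d : ℤ) ^ 2) hp k]
  push_cast
  ring

theorem totient_lt_jordanTwo_prime_pow {p : ℕ} (hp : p.Prime) (k : ℕ) :
    ((Nat.totient (p ^ (k + 1)) : ℕ) : ℤ) < jordanTwo (p ^ (k + 1)) := by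
  rw [jordanTwo_prime_pow hp, Nat.totient_prime_pow hp (Nat.succ_pos k)]
  have hp2 : (2 : ℤ) ≤ (p : ℤ) := by exact_mod_cast hp.two_le
  have ha : (1 : ℤ) ≤ (p : ℤ) ^ k := one_le_pow₀ (by linarith)
  have h1 : ((p ^ (k + 1 - 1) * (p - 1) : ℕ) : ℤ) = (p : ℤ) ^ k * ((p : ℤ) - 1) := by
    rw [Nat.add_sub_cancel]
    push_cast [Nat.cast_sub hp.one_le]
    ring
  rw [h1]
  have h2 : ((p : ℤ) ^ (k + 1)) ^ 2 - ((p : ℤ) ^ k) ^ 2
      = ((p : ℤ) ^ k) ^ 2 * ((p : ℤ) - 1) * ((p : ℤ) + 1) := by ring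
  rw [h2]
  nlinarith [mul_pos (by linarith : (0 : ℤ) < (p : ℤ) ^ k) (by linarith : (0 : ℤ) < (p : ℤ) - 1),
    mul_nonneg (by linarith : (0 : ℤ) ≤ (p : ℤ) ^ k - 1) (by linarith : (0 : ℤ) ≤ (p : ℤ) - 1)]

/-- `φ(N) < J₂(N)` for `N > 1`. -/
theorem totient_lt_jordanTwo (N : ℕ) (hN : 1 < N) : ((Nat.totient N : ℕ) : ℤ) < jordanTwo N := by
  have hN0 : N ≠ 0 := by omega
  rw [← jordanTwoAF_apply, jordanTwoAF_isMultiplicative.multiplicative_factorization _ hN0]
  have hφ : ((Nat.totient N : ℕ) : ℤ)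
      = N.factorization.prod (fun p k => ((Nat.totient (p ^ k) : ℕ) : ℤ)) := by
    conv_lhs => rw [Nat.multiplicative_factorization Nat.totient
      (fun x y hxy => Nat.totient_mul hxy) Nat.totient_one hN0]
    rw [Finsupp.prod, Finsupp.prod]
    push_cast
    rfl
  rw [hφ, Finsupp.prod, Finsupp.prod]
  have hsupp : N.factorization.support = N.primeFactors := Nat.support_factorization N
  have hne : N.factorization.support.Nonempty := by
    rw [hsupp]
    exact Nat.nonempty_primeFactors.mpr hN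
  refine Finset.prod_lt_prod_of_nonempty ?_ ?_ hne
  · intro p hp
    rw [hsupp] at hp
    have hpp := Nat.prime_of_mem_primeFactors hp
    have hk : 0 < N.factorization p := hpp.factorization_pos_of_dvd hN0
      (Nat.dvd_of_mem_primeFactors hp)
    have : 0 < Nat.totient (p ^ N.factorization p) :=
      Nat.totient_pos.mpr (pow_pos hpp.pos _)
    exact_mod_cast this
  · intro p hp
    rw [hsupp] at hp
    have hpp := Nat.prime_of_mem_primeFactors hp
    have hk : 0 < N.factorization p := hpp.factorization_pos_of_dvd hN0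
      (Nat.dvd_of_mem_primeFactors hp)
    obtain ⟨k, hk'⟩ : ∃ k, N.factorization p = k + 1 := ⟨N.factorization p - 1, by omega⟩
    rw [hk', jordanTwoAF_apply]
    exact totient_lt_jordanTwo_prime_pow hpp k

/-! ### The single-pole unit -/

/-- Exponent of `u_d = Δ(q^d)/Δ(q)` in the single-pole unit `u = ∏_{d ∣ N} u_d ^ unitExp N d`. -/
def unitExp (N d : ℕ) : ℤ := - (μ (N / d) : ℤ) * (d : ℤ)

/-- The order, in `t = q^{1/N}`, of the conjugate of `u_d` at the coset with lower-left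
entry `c`: `(N/d) gcd(d,c)² - N`. -/
def cuspOrd (N d c : ℕ) : ℤ := ((N / d : ℕ) : ℤ) * ((Nat.gcd d c : ℕ) : ℤ) ^ 2 - (N : ℤ)

theorem sum_unitExp_mul_cuspOrd (N c : ℕ) (hN : N ≠ 0) :
    ∑ d ∈ N.divisors, unitExp N d * cuspOrd N d c
      = (N : ℤ) * (Nat.totient N : ℤ)
        - (N : ℤ) * ∑ d ∈ N.divisors, (μ (N / d) : ℤ) * ((Nat.gcd d c : ℕ) : ℤ) ^ 2 := by
  rw [← sum_moebius_div_mul_self N (Nat.pos_of_ne_zero hN), Finset.mul_sum, Finset.mul_sum,
    ← Finset.sum_sub_distrib]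
  refine Finset.sum_congr rfl ?_
  intro d hd
  rw [Nat.mem_divisors] at hd
  have hdN : ((N / d : ℕ) : ℤ) * (d : ℤ) = (N : ℤ) := by
    exact_mod_cast Nat.div_mul_cancel hd.1
  unfold unitExp cuspOrd
  linear_combination (-(μ (N / d) : ℤ) * ((Nat.gcd d c : ℕ) : ℤ) ^ 2) * hdN

/-- **Order of the single-pole unit at the cusps other than `∞`**: it is `N φ(N)`. -/
theorem sum_unitExp_mul_cuspOrd_of_not_dvd (N c : ℕ) (hN : N ≠ 0) (hc : ¬ N ∣ c) :
    ∑ d ∈ N.divisors, unitExp N d * cuspOrd N d c = (N : ℤ) * (Nat.totient N : ℤ) := by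
  rw [sum_unitExp_mul_cuspOrd N c hN, sum_moebius_div_mul_gcd_sq_eq_zero N c hN hc]
  ring

/-- ... which is positive. -/
theorem sum_unitExp_mul_cuspOrd_pos (N c : ℕ) (hN : N ≠ 0) (hc : ¬ N ∣ c) :
    0 < ∑ d ∈ N.divisors, unitExp N d * cuspOrd N d c := by
  rw [sum_unitExp_mul_cuspOrd_of_not_dvd N c hN hc]
  have h1 : 0 < N := Nat.pos_of_ne_zero hN
  have h2 : 0 < Nat.totient N := Nat.totient_pos.mpr h1
  exact_mod_cast Nat.mul_pos h1 h2

/-- **Order of the single-pole unit at `∞`** (`N ∣ c`): it is `N φ(N) - N J₂(N)`. -/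
theorem sum_unitExp_mul_cuspOrd_of_dvd (N c : ℕ) (hN : N ≠ 0) (hc : N ∣ c) :
    ∑ d ∈ N.divisors, unitExp N d * cuspOrd N d c
      = (N : ℤ) * (Nat.totient N : ℤ) - (N : ℤ) * jordanTwo N := by
  rw [sum_unitExp_mul_cuspOrd N c hN]
  congr 2
  unfold jordanTwo
  refine Finset.sum_congr rfl ?_
  intro d hd
  rw [Nat.mem_divisors] at hd
  rw [Nat.gcd_eq_left (dvd_trans hd.1 hc)]

/-- ... which is negative when `N > 1`. -/
theorem sum_unitExp_mul_cuspOrd_neg (N c : ℕ) (hN : 1 < N) (hc : N ∣ c) :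
    ∑ d ∈ N.divisors, unitExp N d * cuspOrd N d c < 0 := by
  rw [sum_unitExp_mul_cuspOrd_of_dvd N c (by omega) hc]
  have h1 : (0 : ℤ) < (N : ℤ) := by exact_mod_cast (by omega : 0 < N)
  have h2 := totient_lt_jordanTwo N hN
  nlinarith

/-- The sum of the exponents is `-φ(N)`; so `u = Δ(q)^{φ(N)} ∏_{d ∣ N} Δ(q^d)^{unitExp N d}`. -/
theorem sum_unitExp (N : ℕ) (hN : N ≠ 0) :
    ∑ d ∈ N.divisors, unitExp N d = - (Nat.totient N : ℤ) := by
  rw [← sum_moebius_div_mul_self N (Nat.pos_of_ne_zero hN), ← Finset.sum_neg_distrib]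
  refine Finset.sum_congr rfl ?_
  intro d _
  unfold unitExp
  ring

/-! ### Integer versions (`c : ℤ`, e.g. `c = γ 1 0` for `γ : SL(2, ℤ)`) -/

theorem sum_unitExp_mul_cuspOrd_natAbs_pos (N : ℕ) (c : ℤ) (hN : N ≠ 0) (hc : ¬ (N : ℤ) ∣ c) :
    0 < ∑ d ∈ N.divisors, unitExp N d * cuspOrd N d c.natAbs :=
  sum_unitExp_mul_cuspOrd_pos N c.natAbs hN (fun h => hc (Int.natCast_dvd.mpr h))

theorem sum_unitExp_mul_cuspOrd_natAbs_neg (N : ℕ) (c : ℤ) (hN : 1 < N) (hc : (N : ℤ) ∣ c) :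
    ∑ d ∈ N.divisors, unitExp N d * cuspOrd N d c.natAbs < 0 :=
  sum_unitExp_mul_cuspOrd_neg N c.natAbs hN (Int.natCast_dvd.mp hc)

end Fermat.Agent.S28.H207
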